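import Mathlib.Analysis.SpecialFunctions.Trigonometric.Bounds
import Mathlib.Analysis.SpecificLimits.Basic
import Mathlib.Algebra.Order.Round
import Mathlib.Topology.Algebra.Order.Floor

/-!
# Glasner's theorem on dilates

For `k` points `x` distinct modulo one the mean over `n` of `‖∑ e (h n x)‖ ^ 2` is at most `h k`,
so some `n` makes all these sums `O (H √k)` for `0 < h < H`; a Fejér kernel of degree `H` then
sees a point of `n x` in every interval of length `2 ε`, once `H > ε⁻²` and `k` is large.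
-/

set_option autoImplicit false

noncomputable section

open Finset Filter Topology
open scoped ComplexConjugate

namespace FA.GlasnerDilates

/-- `e (t) = exp (2 π i t)`. -/
def e1 (t : ℝ) : ℂ := Complex.exp (Complex.I * ((2 * Real.pi * t : ℝ) : ℂ))

theorem e1_add (s t : ℝ) : e1 (s + t) = e1 s * e1 t := by
  rw [e1, e1, e1, ← Complex.exp_add]
  push_cast
  ring_nf

theorem e1_intCast (m : ℤ) : e1 m = 1 := by
  rw [e1, Complex.exp_eq_one_iff]
  exact ⟨m, by push_cast; ring⟩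

theorem e1_natCast_mul (n : ℕ) (t : ℝ) : e1 (n * t) = e1 t ^ n := by
  rw [e1, e1, ← Complex.exp_nat_mul]
  push_cast
  ring_nf

theorem conj_e1 (t : ℝ) : conj (e1 t) = e1 (-t) := by
  rw [e1, e1, ← Complex.exp_conj, map_mul, Complex.conj_I, Complex.conj_ofReal]
  push_cast
  ring_nf

theorem norm_e1 (t : ℝ) : ‖e1 t‖ = 1 := by
  rw [e1, Complex.norm_exp_I_mul_ofReal]

theorem four_mul_dist_le_norm (t : ℝ) : 4 * |t - round t| ≤ ‖e1 t - 1‖ := by
  set d := t - round t with hd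
  have hd2 : |d| ≤ 1 / 2 := abs_sub_round t
  rw [show t = d + (round t : ℝ) by rw [hd]; ring, e1_add, e1_intCast, mul_one, e1,
    Complex.norm_exp_I_mul_ofReal_sub_one, Real.norm_eq_abs, abs_mul, abs_two,
    show 2 * Real.pi * d / 2 = Real.pi * d by ring]
  have h1 := Real.mul_abs_le_abs_sin (x := Real.pi * d) (by
    rw [abs_mul, abs_of_pos Real.pi_pos]; nlinarith [Real.pi_pos])
  rw [abs_mul, abs_of_pos Real.pi_pos, show 2 / Real.pi * (Real.pi * |d|) = 2 * |d| by
    field_simp] at h1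
  linarith

/-- A Fejér kernel is small away from the integers. -/
theorem norm_geom_sum_le (t : ℝ) (H : ℕ) {ε : ℝ} (hε : 0 < ε) (ht : ε ≤ |t - round t|) :
    ‖∑ j ∈ range H, e1 t ^ j‖ ≤ 1 / (2 * ε) := by
  have h1 := four_mul_dist_le_norm t
  have hpos : 0 < ‖e1 t - 1‖ := by linarith
  rw [geom_sum_eq (sub_ne_zero.1 (norm_pos_iff.1 hpos)), norm_div,
    div_le_div_iff₀ hpos (by positivity), one_mul]
  have h2 : ‖e1 t ^ H - 1‖ ≤ 2 := by
    refine (norm_sub_le _ _).trans ?_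
    rw [norm_pow, norm_e1, one_pow, norm_one]
    norm_num
  calc ‖e1 t ^ H - 1‖ * (2 * ε) ≤ 2 * (2 * ε) := mul_le_mul_of_nonneg_right h2 (by linarith)
    _ ≤ ‖e1 t - 1‖ := by linarith

open scoped Classical in
/-- The means of the powers of `e1 t`. -/
theorem tendsto_mean (t : ℝ) :
    Tendsto (fun N : ℕ => (∑ n ∈ range N, e1 t ^ (n + 1)) / (N : ℂ)) atTop
      (𝓝 (if e1 t = 1 then 1 else 0)) := by
  split_ifs with h
  · refine tendsto_const_nhds.congr' ?_
    filter_upwards [eventually_ge_atTop 1] with N hN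
    rw [h]
    simp [Finset.sum_const, show N ≠ 0 by omega]
  · refine squeeze_zero_norm (fun N => ?_) (tendsto_const_div_atTop_nhds_zero_nat
      (2 / ‖e1 t - 1‖))
    rw [Finset.sum_congr rfl (fun n _ => pow_succ' (e1 t) n), ← Finset.mul_sum, geom_sum_eq h,
      norm_div, norm_mul, norm_e1, one_mul, norm_div, Complex.norm_natCast]
    gcongr
    refine (norm_sub_le _ _).trans ?_
    rw [norm_pow, norm_e1, one_pow, norm_one]
    norm_num

variable {s : Finset ℝ}

/-- At most `h` points of `s` differ from a given one by a multiple of `1 / h`. -/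
theorem card_filter_le (hs : Set.InjOn Int.fract (s : Set ℝ)) {h : ℕ} (hh : 0 < h) (x : ℝ)
    [DecidablePred fun y => e1 (h * (x - y)) = 1] :
    #(s.filter fun y => e1 (h * (x - y)) = 1) ≤ h := by
  have hh' : (0 : ℝ) < h := Nat.cast_pos.2 hh
  refine (Finset.card_le_card_of_injOn (fun y => ⌊(h : ℝ) * Int.fract y⌋₊) (t := range h)
    (fun y _ => ?_) fun y hy y' hy' heq => ?_).trans_eq (card_range h)
  · simp only [coe_range, Set.mem_Iio]
    rw [Nat.floor_lt (mul_nonneg hh'.le (Int.fract_nonneg _))]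
    exact mul_lt_of_lt_one_right hh' (Int.fract_lt_one _)
  · simp only [coe_filter, Set.mem_ofPred_eq] at hy hy'
    refine hs hy.1 hy'.1 ?_
    have key : ∀ z : ℝ, e1 z = 1 → ∃ m : ℤ, z = m := fun z hz => by
      rw [e1, Complex.exp_eq_one_iff] at hz
      obtain ⟨m, hm⟩ := hz
      refine ⟨m, ?_⟩
      have h2 : ((2 * Real.pi * z : ℝ) : ℂ) = ((2 * Real.pi * m : ℝ) : ℂ) := by
        refine mul_left_cancel₀ Complex.I_ne_zero (hm.trans ?_)
        push_cast; ring
      exact mul_left_cancel₀ (by positivity) (Complex.ofReal_inj.1 h2)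
    obtain ⟨m, hm⟩ := key _ hy.2
    obtain ⟨m', hm'⟩ := key _ hy'.2
    have hd : (h : ℝ) * Int.fract y - (h : ℝ) * Int.fract y' =
        ((m' - m - h * ⌊y⌋ + h * ⌊y'⌋ : ℤ) : ℝ) := by
      simp only [Int.fract]; push_cast; linear_combination hm' - hm
    have h1 : |(h : ℝ) * Int.fract y - (h : ℝ) * Int.fract y'| < 1 := by
      have a1 := Nat.floor_le (mul_nonneg hh'.le (Int.fract_nonneg y))
      have a2 := Nat.lt_floor_add_one ((h : ℝ) * Int.fract y)
      have b1 := Nat.floor_le (mul_nonneg hh'.le (Int.fract_nonneg y'))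
      have b2 := Nat.lt_floor_add_one ((h : ℝ) * Int.fract y')
      simp only at heq
      rw [heq] at a1 a2
      rw [abs_lt]
      constructor <;> linarith
    rw [hd] at h1
    have h0 : m' - m - h * ⌊y⌋ + h * ⌊y'⌋ = 0 := Int.abs_lt_one_iff.1 (by exact_mod_cast h1)
    rw [h0, Int.cast_zero, sub_eq_zero] at hd
    exact mul_left_cancel₀ hh'.ne' hd

/-- The exponential sum of `s` at frequency `h`, dilated by `n`. -/
def expSum (s : Finset ℝ) (h n : ℕ) : ℂ := ∑ x ∈ s, e1 (h * (n * x))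

theorem normSq_expSum (h n : ℕ) :
    ((Complex.normSq (expSum s h n) : ℝ) : ℂ) =
      ∑ x ∈ s, ∑ y ∈ s, e1 (h * (x - y)) ^ n := by
  rw [Complex.normSq_eq_conj_mul_self, mul_comm, expSum, map_sum, Finset.sum_mul_sum]
  refine Finset.sum_congr rfl fun x _ => Finset.sum_congr rfl fun y _ => ?_
  rw [conj_e1, ← e1_add, ← e1_natCast_mul]
  congr 1
  ring

/-- Some dilate has small exponential sums. -/
theorem exists_small_expSums (hs : Set.InjOn Int.fract (s : Set ℝ)) (H : ℕ) (hk : 1 ≤ #s) :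
    ∃ n : ℕ, 0 < n ∧ ∀ h : ℕ, 0 < h → h < H → ‖expSum s h n‖ ^ 2 ≤ (H : ℝ) ^ 2 * #s + 1 := by
  classical
  have hlim : Tendsto (fun N : ℕ => (∑ n ∈ range N, ∑ h ∈ Ico 1 H,
      ((Complex.normSq (expSum s h (n + 1)) : ℝ) : ℂ)) / (N : ℂ)) atTop
      (𝓝 (∑ h ∈ Ico 1 H, ∑ x ∈ s, ∑ y ∈ s, if e1 (h * (x - y)) = 1 then (1 : ℂ) else 0)) := by
    refine (tendsto_finsetSum _ fun h _ => tendsto_finsetSum _ fun x _ =>
      tendsto_finsetSum _ fun y _ => tendsto_mean _).congr fun N => ?_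
    simp only [normSq_expSum]
    simp only [div_eq_mul_inv, Finset.sum_mul]
    symm
    rw [Finset.sum_comm]
    refine Finset.sum_congr rfl fun h _ => ?_
    rw [Finset.sum_comm]
    refine Finset.sum_congr rfl fun x _ => ?_
    rw [Finset.sum_comm]
  have hre := (Complex.continuous_re.tendsto _).comp hlim
  have hbound : (∑ h ∈ Ico 1 H, ∑ x ∈ s, ∑ y ∈ s,
      if e1 (h * (x - y)) = 1 then (1 : ℂ) else 0).re < (H : ℝ) ^ 2 * #s + 1 := by
    simp only [Finset.sum_boole, Complex.re_sum, Complex.natCast_re]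
    refine lt_of_le_of_lt ?_ (lt_add_one _)
    refine (Finset.sum_le_card_nsmul _ _ ((H : ℝ) * #s) fun h hh => ?_).trans ?_
    · rw [mem_Ico] at hh
      refine (Finset.sum_le_card_nsmul _ _ (H : ℝ) fun x _ => ?_).trans_eq (by
        rw [nsmul_eq_mul, mul_comm])
      exact Nat.cast_le.2 ((card_filter_le hs hh.1 x).trans hh.2.le)
    · rw [Nat.card_Ico, nsmul_eq_mul, sq, mul_assoc]
      gcongr
      exact Nat.sub_le H 1
  obtain ⟨N, hN, hN1⟩ :=
    ((hre.eventually (eventually_lt_nhds hbound)).and (eventually_ge_atTop 1)).exists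
  simp only [Function.comp_apply, Complex.div_natCast_re, Complex.re_sum,
    Complex.ofReal_re] at hN
  rw [div_lt_iff₀ (by exact_mod_cast hN1)] at hN
  obtain ⟨n, -, hn⟩ := Finset.exists_lt_of_sum_lt (hN.trans_eq (by
    rw [Finset.sum_const, card_range, nsmul_eq_mul, mul_comm]) :
      _ < ∑ _n ∈ range N, ((H : ℝ) ^ 2 * #s + 1))
  refine ⟨n + 1, Nat.succ_pos _, fun h h1 h2 => le_trans ?_ hn.le⟩
  rw [← Complex.normSq_eq_norm_sq]
  exact Finset.single_le_sum (f := fun h => Complex.normSq (expSum s h (n + 1)))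
    (fun _ _ => Complex.normSq_nonneg _) (mem_Ico.2 ⟨h1, h2⟩)

/-- The bound of Alon and Peres, in a crude form. -/
theorem exists_dilate_dense (hs : Set.InjOn Int.fract (s : Set ℝ)) {ε : ℝ} (hε : 0 < ε) {H : ℕ}
    (hH : 1 / (4 * ε ^ 2) + 1 ≤ (H : ℝ)) (hk : 4 * (H : ℝ) ^ 6 < #s) :
    ∃ n : ℕ, 0 < n ∧ ∀ t : ℝ, ∃ x ∈ s, ∃ m : ℤ, |(n : ℝ) * x - t - m| < ε := by
  have hH1 : (1 : ℝ) ≤ H := le_trans (le_add_of_nonneg_left (by positivity)) hH
  have hk1 : (1 : ℝ) ≤ #s :=
    le_trans (by nlinarith [one_le_pow₀ (n := 6) hH1]) hk.le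
  obtain ⟨n, hn0, hn⟩ := exists_small_expSums hs H (by exact_mod_cast hk1)
  refine ⟨n, hn0, fun t => ?_⟩
  by_contra hnone
  push Not at hnone
  set B : ℝ := 2 * H * Real.sqrt #s with hB
  have hS : ∀ h, 0 < h → h < H → ‖expSum s h n‖ ≤ B := fun h h1 h2 => by
    refine le_of_pow_le_pow_left₀ two_ne_zero (by positivity) ((hn h h1 h2).trans ?_)
    rw [hB, mul_pow, Real.sq_sqrt (Nat.cast_nonneg _)]
    nlinarith [mul_le_mul (one_le_pow₀ (n := 2) hH1) hk1 zero_le_one (by positivity)]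
  set T : ℕ → ℕ → ℝ := fun i j =>
    (∑ x ∈ s, e1 ((i : ℝ) * (n * x - t)) * conj (e1 ((j : ℝ) * (n * x - t)))).re with hT
  have hT1 : ∀ i ∈ range H, ∀ j ∈ range H, -B ≤ T i j + if i = j then -(#s : ℝ) else 0 := by
    intro i hi j hj
    rw [mem_range] at hi hj
    rcases lt_trichotomy i j with hij | hij | hij
    · rw [if_neg hij.ne, add_zero]
      obtain ⟨d, rfl⟩ := Nat.exists_eq_add_of_lt hij
      have e : ∑ x ∈ s, e1 ((i : ℝ) * (n * x - t)) *
          conj (e1 (((i + d + 1 : ℕ) : ℝ) * (n * x - t))) =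
          e1 ((d + 1 : ℕ) * t) * conj (expSum s (d + 1) n) := by
        rw [expSum, map_sum, Finset.mul_sum]
        refine Finset.sum_congr rfl fun x _ => ?_
        rw [conj_e1, conj_e1, ← e1_add, ← e1_add]
        congr 1
        push_cast; ring
      simp only [hT]
      rw [e]
      refine (abs_le.1 ((Complex.abs_re_le_norm _).trans ?_)).1
      rw [norm_mul, norm_e1, one_mul, Complex.norm_conj]
      exact hS _ (Nat.succ_pos _) (by omega)
    · subst hij
      rw [if_pos rfl, hT]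
      simp only [Complex.mul_conj', norm_e1]
      simp only [Complex.ofReal_one, one_pow, Finset.sum_const, nsmul_eq_mul, mul_one,
        Complex.natCast_re, add_neg_cancel]
      rw [hB, neg_nonpos]
      positivity
    · rw [if_neg hij.ne', add_zero]
      obtain ⟨d, rfl⟩ := Nat.exists_eq_add_of_lt hij
      have e : ∑ x ∈ s, e1 (((j + d + 1 : ℕ) : ℝ) * (n * x - t)) *
          conj (e1 ((j : ℝ) * (n * x - t))) =
          e1 (-((d + 1 : ℕ) * t)) * expSum s (d + 1) n := by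
        rw [expSum, Finset.mul_sum]
        refine Finset.sum_congr rfl fun x _ => ?_
        rw [conj_e1, ← e1_add, ← e1_add]
        congr 1
        push_cast; ring
      simp only [hT]
      rw [e]
      refine (abs_le.1 ((Complex.abs_re_le_norm _).trans ?_)).1
      rw [norm_mul, norm_e1, one_mul]
      exact hS _ (Nat.succ_pos _) (by omega)
  have hlow : (H : ℝ) * #s - (H : ℝ) ^ 2 * B ≤ ∑ i ∈ range H, ∑ j ∈ range H, T i j := by
    have h1 := Finset.sum_le_sum fun i hi => Finset.sum_le_sum fun j hj => hT1 i hi j hj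
    simp only [Finset.sum_const, card_range, nsmul_eq_mul, Finset.sum_add_distrib,
      Finset.sum_ite_eq, mem_range] at h1
    rw [Finset.sum_congr rfl (fun i hi => if_pos (mem_range.1 hi)), Finset.sum_const, card_range,
      nsmul_eq_mul] at h1
    linarith
  have hup : ∑ i ∈ range H, ∑ j ∈ range H, T i j ≤ (#s : ℝ) * (1 / (4 * ε ^ 2)) := by
    have e : ∑ i ∈ range H, ∑ j ∈ range H, T i j =
        ∑ x ∈ s, ‖∑ i ∈ range H, e1 (n * x - t) ^ i‖ ^ 2 := by
      simp only [hT, Complex.re_sum]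
      rw [Finset.sum_congr rfl fun i _ => Finset.sum_comm, Finset.sum_comm]
      refine Finset.sum_congr rfl fun x _ => ?_
      rw [← Complex.normSq_eq_norm_sq, ← Complex.ofReal_re (Complex.normSq _),
        ← Complex.mul_conj, map_sum, Finset.sum_mul_sum, Complex.re_sum]
      simp only [Complex.re_sum, ← e1_natCast_mul]
    rw [e]
    refine (Finset.sum_le_card_nsmul _ _ (1 / (4 * ε ^ 2)) fun x hx => ?_).trans_eq
      (nsmul_eq_mul _ _)
    rw [show 1 / (4 * ε ^ 2) = (1 / (2 * ε)) ^ 2 by ring]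
    exact pow_le_pow_left₀ (norm_nonneg _)
      (norm_geom_sum_le _ H hε (hnone x hx (round ((n : ℝ) * x - t)))) 2
  have h1 : (#s : ℝ) ≤ 2 * (H : ℝ) ^ 3 * Real.sqrt #s := by
    rw [hB] at hlow
    nlinarith [mul_le_mul_of_nonneg_left hH (Nat.cast_nonneg (α := ℝ) #s)]
  have h2 : (#s : ℝ) ^ 2 ≤ (2 * (H : ℝ) ^ 3 * Real.sqrt #s) ^ 2 :=
    pow_le_pow_left₀ (Nat.cast_nonneg _) h1 2
  rw [mul_pow, Real.sq_sqrt (Nat.cast_nonneg _)] at h2
  nlinarith

/-- **Glasner's theorem**, uniform form. -/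
theorem glasner_uniform {ε : ℝ} (hε : 0 < ε) :
    ∃ K : ℕ, ∀ s : Finset ℝ, Set.InjOn Int.fract (s : Set ℝ) → K ≤ #s →
      ∃ n : ℕ, 0 < n ∧ ∀ t : ℝ, ∃ x ∈ s, ∃ m : ℤ, |(n : ℝ) * x - t - m| < ε := by
  obtain ⟨H, hH⟩ := exists_nat_ge (1 / (4 * ε ^ 2) + 1)
  refine ⟨4 * H ^ 6 + 1, fun s hs hk => exists_dilate_dense hs hε hH ?_⟩
  exact_mod_cast Nat.lt_of_succ_le hk

/-- **Glasner's theorem.** -/
theorem glasner {X : Set ℝ} (hX : (Int.fract '' X).Infinite) {ε : ℝ} (hε : 0 < ε) :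
    ∃ n : ℕ, 0 < n ∧ ∀ t : ℝ, ∃ x ∈ X, ∃ m : ℤ, |(n : ℝ) * x - t - m| < ε := by
  obtain ⟨K, hK⟩ := glasner_uniform hε
  obtain ⟨u, hu, huK⟩ := hX.exists_subset_card_eq K
  obtain ⟨g, hg⟩ : ∃ g : ℝ → ℝ, ∀ y ∈ u, g y ∈ X ∧ Int.fract (g y) = y := by
    classical
    refine ⟨fun y => if h : ∃ x ∈ X, Int.fract x = y then h.choose else 0, fun y hy => ?_⟩
    have h : ∃ x ∈ X, Int.fract x = y := hu hy
    simp only [dif_pos h]
    exact h.choose_spec
  classical
  obtain ⟨n, hn0, hn⟩ := hK (u.image g) (fun a ha b hb hab => by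
    simp only [coe_image, Set.mem_image, mem_coe] at ha hb
    obtain ⟨a', ha', rfl⟩ := ha
    obtain ⟨b', hb', rfl⟩ := hb
    rw [(hg a' ha').2, (hg b' hb').2] at hab
    rw [hab]) (by
    rw [Finset.card_image_of_injOn fun a ha b hb hab => by
      rw [← (hg a ha).2, hab, (hg b hb).2], huK])
  refine ⟨n, hn0, fun t => ?_⟩
  obtain ⟨x, hx, m, hm⟩ := hn t
  rw [Finset.mem_image] at hx
  obtain ⟨y, hy, rfl⟩ := hx
  exact ⟨g y, (hg y hy).1, m, hm⟩

end FA.GlasnerDilates

end
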